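import Fermat.Agent.S36.Alg3.Final

/-!
# S59 / cell (C) LO-SQ, EASY half — ALG3 with its EXPLICIT constant (helper586)

`Eng.Alg3Statement` (main) hides the constant of the S36 engine behind `∃ C`.  The proof
`Alg3.alg3_of_leaves` uses `C = (q² - 1) * ((q - 1) * (q + 1))`; this file exposes it:

    alg3C : Alg3CStatement        -- `f ^ alg3Const q = c * h ^ m`,  alg3Const q = (q² − 1)·((q − 1)(q + 1))
    alg3Const_coprime : p.Prime → ¬ p ∣ q ^ 2 - 1 → (alg3Const q).Coprime p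

Same leaves as on main (`H586.leafStepA`, `H79.leafSheets`, `H630.leafPure`, wall
`H193.exists_pow_eq_of_three`); OFF-MAIN (S59 moonshot).
-/

set_option autoImplicit false
set_option linter.style.haveILetI false
set_option linter.unusedSectionVars false
set_option linter.unusedVariables false
set_option synthInstance.maxHeartbeats 400000
set_option maxHeartbeats 1600000

noncomputable section

namespace Fermat.Agent.S59.LoSqC.H586

open Fermat.Agent.S36.Eng
open Fermat.Agent.S36.Alg3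
open Fermat.Agent

/-- The explicit constant of the S36 engine at `q`. -/
def alg3Const (q : ℕ) : ℕ := (q ^ 2 - 1) * ((q - 1) * (q + 1))

theorem alg3Const_eq (q : ℕ) : alg3Const q = (q ^ 2 - 1) * ((q - 1) * (q + 1)) := rfl

theorem alg3Const_eq_sq (q : ℕ) : alg3Const q = (q ^ 2 - 1) ^ 2 := by
  unfold alg3Const
  have h : (q - 1) * (q + 1) = q ^ 2 - 1 := by
    rcases Nat.eq_zero_or_pos q with h0 | h0
    · subst h0; simp
    · obtain ⟨k, rfl⟩ : ∃ k, q = k + 1 := ⟨q - 1, by omega⟩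
      have : (k + 1) ^ 2 = k * (k + 2) + 1 := by ring
      rw [this]
      simp
  rw [h]
  ring

theorem alg3Const_pos {q : ℕ} (hq : 2 ≤ q) : 0 < alg3Const q := by
  rw [alg3Const_eq_sq]
  have : 4 ≤ q ^ 2 := by nlinarith
  have h1 : 0 < q ^ 2 - 1 := by omega
  positivity

/-- The constant is prime to `p` as soon as `p ∤ q² − 1`. -/
theorem alg3Const_coprime {p q : ℕ} (hp : p.Prime) (h : ¬ p ∣ q ^ 2 - 1) :
    (alg3Const q).Coprime p := by
  rw [alg3Const_eq_sq]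
  exact Nat.Coprime.pow_left 2 ((Nat.Prime.coprime_iff_not_dvd hp).2 h).symm

theorem not_dvd_alg3Const {p q : ℕ} (hp : p.Prime) (h : ¬ p ∣ q ^ 2 - 1) :
    ¬ p ∣ alg3Const q := by
  rw [alg3Const_eq_sq]
  exact fun h' => h (hp.dvd_of_dvd_pow h')

/-- `Eng.Alg3Statement` with the constant exposed. -/
def Alg3CStatement : Prop :=
  ∀ {R E F F' : Type} [CommRing R] [IsDomain R] [IsDiscreteValuationRing R]
    [HenselianLocalRing R] [IsAlgClosed (IsLocalRing.ResidueField R)]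
    [Field E] [CharZero E] [Algebra R E] [IsFractionRing R E]
    [Field F] [Algebra E F] [Algebra R F] [IsScalarTower R E F]
    [Field F'] [Algebra E F'] [Algebra R F'] [IsScalarTower R E F']
    (w : R) (_ : Irreducible w) (q : ℕ) (_ : q.Prime)
    (_ : (q : R) ∈ IsLocalRing.maximalIdeal R)
    (α β : F' →ₐ[E] F) (x : F) (x' : F')
    (V₁ V₂ V₃ : ValuationSubring F) (V₁' V₂' : ValuationSubring F')
    (_ : TripleCtx w q α β x x' V₁ V₂ V₃ V₁' V₂'),
    ∀ m : ℕ, 0 < m → ¬ q ∣ m →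
      ∀ f : F, f ≠ 0 → A2.DivisibleDiv E m f →
        S35.G.NormPow α m f → S35.G.NormPow β m f →
        ∃ (c : E) (h : F), h ≠ 0 ∧ f ^ alg3Const q = algebraMap E F c * h ^ m

/-- **ALG3 with explicit constant, from the three leaves** (replay of `Alg3.alg3_of_leaves`). -/
theorem alg3C_of_leaves (hA : LeafStepA) (hS : LeafSheets) (hP : LeafPure) : Alg3CStatement := by
  intro R E F F' _ _ _ _ _ _ _ _ _ _ _ _ _ _ _ _ _ w hw q hq hqR α β x x' V₁ V₂ V₃ V₁' V₂' T
  intro m hm hqm f hf hdiv hNα hNβ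
  obtain ⟨s, G, u, k₁, k₂, hG, hfu, hu₁, hu₂, hu₃, hk₁, hk₂⟩ :=
    hA w hw q hq hqR α β x x' V₁ V₂ V₃ V₁' V₂' T m hm hqm f hf hNα hNβ
  have hu0 : u ≠ 0 := ne_zero_of_sub_one_mem_nonunits hu₁
  have hinjRE : Function.Injective (algebraMap R E) := IsFractionRing.injective R E
  have hwE : algebraMap R E w ≠ 0 := fun h => hw.ne_zero (hinjRE (by rw [h, map_zero]))
  have hwF : algebraMap R F w = algebraMap E F (algebraMap R E w) :=
    IsScalarTower.algebraMap_apply R E F w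
  have hfu' : f ^ (q ^ 2 - 1) = algebraMap E F (algebraMap R E w ^ s) * G ^ m * u := by
    rw [hfu, hwF, map_zpow₀]
  have hdivu : A2.DivisibleDiv E m u :=
    divisibleDiv_of_eq (zpow_ne_zero _ hwE) hG hdiv hfu'
  obtain ⟨ζ, hζ⟩ := Fermat.Agent.A2.Alg.H348.exists_primitiveRoot (R := R) q m hq hqR hm hqm
  obtain ⟨κ, hfin, hinf⟩ := hP w hw q hq hqR α β x x' V₁ V₂ V₃ V₁' V₂' T m hm hqm ζ hζ u hu0
    hdivu hu₁ hu₂ hu₃ k₁ k₂ hk₁ hk₂
  haveI := T.dvr₁
  have hdisc : ∀ g : F, ∃ k : ℕ, g * algebraMap R F w ^ k ∈ V₁ :=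
    exists_mul_pow_mem_of_unif V₁ T.unif₁.1 T.unif₁.2.1 T.unif₁.2.2
  obtain ⟨g, hg⟩ := S36.H193.exists_pow_eq_of_three E w hw q hq hqR T.hx T.hfin hm hqm hζ
    (f := u ^ ((q - 1) * (q + 1))) (pow_ne_zero _ hu0) V₁ V₂ V₃
    (hS w hw q hq hqR α β x x' V₁ V₂ V₃ V₁' V₂' T)
    (sub_one_mem_nonunits_pow hu₁ _) (sub_one_mem_nonunits_pow hu₂ _)
    (sub_one_mem_nonunits_pow hu₃ _) T.base₁ T.unif₁.2.1 T.unif₁.2.2 hdisc κ hfin hinf
  have hg0 : g ≠ 0 := by
    rintro rfl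
    rw [zero_pow hm.ne'] at hg
    exact pow_ne_zero _ hu0 hg.symm
  refine ⟨(algebraMap R E w ^ s) ^ ((q - 1) * (q + 1)), G ^ ((q - 1) * (q + 1)) * g,
    mul_ne_zero (pow_ne_zero _ hG) hg0, ?_⟩
  rw [alg3Const_eq, pow_mul, hfu', mul_pow, mul_pow, ← hg, map_pow, mul_pow, ← pow_mul, ← pow_mul,
    mul_comm m ((q - 1) * (q + 1))]
  ring

/-- **ALG3 with explicit constant**, unconditionally. -/
theorem alg3C : Alg3CStatement :=
  alg3C_of_leaves S36.H586.leafStepA S36.H79.leafSheets S36.H630.leafPure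

/-- The explicit form implies the frozen one. -/
theorem alg3Statement_of_alg3C (h : Alg3CStatement) : Alg3Statement := by
  intro R E F F' _ _ _ _ _ _ _ _ _ _ _ _ _ _ _ _ _ w hw q hq hqR α β x x' V₁ V₂ V₃ V₁' V₂' T
  exact ⟨alg3Const q, alg3Const_pos hq.two_le,
    h w hw q hq hqR α β x x' V₁ V₂ V₃ V₁' V₂' T⟩

end Fermat.Agent.S59.LoSqC.H586

end
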